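import Mathlib

set_option autoImplicit false

noncomputable section

namespace Fermat.Agent.Gateway.A2

open Module

section Count

variable {K : Type*} [Field K] {M : Type*} [AddCommGroup M] [Module K M] [FiniteDimensional K M]
variable {E : Type*} [AddCommGroup E] [Module K E]

/-- abstract dimension count used for the bound on parabolic cohomology. -/
theorem finrank_add_le_of_injective_of_le_sup
    (Ds Du R J : Submodule K M) (L : M × M →ₗ[K] M)
    (hJ : J ≤ Submodule.map L (Ds.prod Du) ⊔ R)
    (θ : E →ₗ[K] M × M) (hθ : Function.Injective θ)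
    (h1 : ∀ e, (θ e).1 ∈ Ds) (h2 : ∀ e, (θ e).2 ∈ Du) (h3 : ∀ e, L (θ e) ∈ R) :
    Module.Finite K E ∧
      finrank K E + finrank K J ≤ finrank K Ds + finrank K Du + finrank K R := by
  classical
  -- the map Ξ
  let Ξ : ((Ds × Du) × R) →ₗ[K] M :=
    (L.comp (LinearMap.prodMap Ds.subtype Du.subtype)).comp (LinearMap.fst K (Ds × Du) R)
      - R.subtype.comp (LinearMap.snd K (Ds × Du) R)
  have hΞ : ∀ p : (Ds × Du) × R, Ξ p = L ((p.1.1 : M), (p.1.2 : M)) - (p.2 : M) := fun p => rfl
  -- the embedding of E into ker Ξ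
  let ι : E →ₗ[K] ((Ds × Du) × R) :=
    LinearMap.prod
      (LinearMap.prod (LinearMap.codRestrict Ds ((LinearMap.fst K M M).comp θ) h1)
        (LinearMap.codRestrict Du ((LinearMap.snd K M M).comp θ) h2))
      (LinearMap.codRestrict R (L.comp θ) h3)
  have hι : ∀ e, ι e = ((⟨(θ e).1, h1 e⟩, ⟨(θ e).2, h2 e⟩), ⟨L (θ e), h3 e⟩) := fun e => rfl
  have hιinj : Function.Injective ι := by
    intro e e' h
    apply hθ
    rw [hι, hι] at h
    have ha := congrArg (fun p : (Ds × Du) × R => (p.1.1 : M)) h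
    have hb := congrArg (fun p : (Ds × Du) × R => (p.1.2 : M)) h
    exact Prod.ext ha hb
  have hιker : ∀ e, ι e ∈ LinearMap.ker Ξ := by
    intro e
    rw [LinearMap.mem_ker, hΞ, hι]
    simp
  have hfin : Module.Finite K E := Module.Finite.of_injective ι hιinj
  refine ⟨hfin, ?_⟩
  -- E injects into ker Ξ
  have hE : finrank K E ≤ finrank K (LinearMap.ker Ξ) := by
    let ι' : E →ₗ[K] LinearMap.ker Ξ := LinearMap.codRestrict _ ι hιker
    have : Function.Injective ι' := by
      intro e e' h
      apply hιinj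
      have := congrArg Subtype.val h
      exact this
    exact LinearMap.finrank_le_finrank_of_injective this
  -- J ≤ range Ξ
  have hJr : J ≤ LinearMap.range Ξ := by
    intro j hj
    obtain ⟨y, hy, r, hr, rfl⟩ := Submodule.mem_sup.mp (hJ hj)
    obtain ⟨p, hp, rfl⟩ := Submodule.mem_map.mp hy
    rw [Submodule.mem_prod] at hp
    refine ⟨((⟨p.1, hp.1⟩, ⟨p.2, hp.2⟩), ⟨-r, R.neg_mem hr⟩), ?_⟩
    rw [hΞ]
    simp
  have hJ' : finrank K J ≤ finrank K (LinearMap.range Ξ) := Submodule.finrank_mono hJr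
  have hrn := LinearMap.finrank_range_add_finrank_ker Ξ
  have hdim : finrank K ((Ds × Du) × R) = finrank K Ds + finrank K Du + finrank K R := by
    rw [Module.finrank_prod, Module.finrank_prod]
  omega

end Count

end Fermat.Agent.Gateway.A2
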