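import Mathlib

set_option autoImplicit false

noncomputable section

namespace Fermat.Agent.Gateway.A2

open scoped Pointwise

section Action

variable {G : Type*} [Group G] {X : Type*} [MulAction G X] (K : Type*) [Field K]

/-- left action of `G` on functions `X → K`: `(act g f) x = f (g⁻¹ • x)`. -/
def act (g : G) : (X → K) →ₗ[K] (X → K) :=
  LinearMap.funLeft K K (fun x : X => g⁻¹ • x)

@[simp] theorem act_apply (g : G) (f : X → K) (x : X) : act K g f x = f (g⁻¹ • x) := rfl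

theorem act_one (f : X → K) : act K (1 : G) f = f := by
  ext x; simp

theorem act_mul (g h : G) (f : X → K) : act K (g * h) f = act K g (act K h f) := by
  ext x; simp [mul_smul]

theorem act_inv_act (g : G) (f : X → K) : act K g⁻¹ (act K g f) = f := by
  rw [← act_mul, inv_mul_cancel, act_one]

theorem act_act_inv (g : G) (f : X → K) : act K g (act K g⁻¹ f) = f := by
  rw [← act_mul, mul_inv_cancel, act_one]

theorem act_pow_eq_of_smul_eq {g : G} {d : ℕ} (hd : ∀ x : X, g ^ d • x = x) (f : X → K) :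
    act K (g ^ d) f = f := by
  ext x
  rw [act_apply]
  congr 1
  have := hd ((g ^ d)⁻¹ • x)
  rw [smul_inv_smul] at this
  exact this.symm

end Action

section Cocycle

variable {G : Type*} [Group G] (Γ : Subgroup G) {K : Type*} [Field K]

/-- the chosen section of `G → G ⧸ Γ`. -/
def sec (x : G ⧸ Γ) : G := Quotient.out x

theorem mk_sec (x : G ⧸ Γ) : ((sec Γ x : G) : G ⧸ Γ) = x := QuotientGroup.out_eq' x

theorem gam_mem (g : G) (x : G ⧸ Γ) : (sec Γ (g • x))⁻¹ * g * sec Γ x ∈ Γ := by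
  rw [mul_assoc, ← QuotientGroup.eq, mk_sec]
  conv_lhs => rw [← mk_sec Γ x]
  rfl

/-- the `Γ`-valued cocycle attached to the section. -/
def gam (g : G) (x : G ⧸ Γ) : Γ := ⟨(sec Γ (g • x))⁻¹ * g * sec Γ x, gam_mem Γ g x⟩

theorem gam_mul (g h : G) (x : G ⧸ Γ) : gam Γ (g * h) x = gam Γ g (h • x) * gam Γ h x := by
  apply Subtype.ext
  simp only [gam, mul_smul, Subgroup.coe_mul]
  group

variable {Γ}

/-- Shapiro cocycle of an additive character of `Γ`. -/
def coc (φ : Additive Γ →+ K) (g : G) : (G ⧸ Γ) → K :=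
  fun y => φ (Additive.ofMul (gam Γ g (g⁻¹ • y)))

theorem coc_apply (φ : Additive Γ →+ K) (g : G) (y : G ⧸ Γ) :
    coc φ g y = φ (Additive.ofMul (gam Γ g (g⁻¹ • y))) := rfl

theorem coc_mul (φ : Additive Γ →+ K) (g h : G) :
    coc φ (g * h) = coc φ g + act K g (coc φ h) := by
  ext y
  simp only [coc_apply, Pi.add_apply, act_apply]
  rw [gam_mul, ofMul_mul, map_add]
  congr 3
  · rw [mul_inv_rev, mul_smul, smul_inv_smul]
  · rw [mul_inv_rev, mul_smul]

theorem coc_one (φ : Additive Γ →+ K) : coc φ (1 : G) = 0 := by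
  have h := coc_mul φ (1 : G) 1
  rw [mul_one, act_one] at h
  exact left_eq_add.mp h

theorem coc_inv (φ : Additive Γ →+ K) (g : G) : coc φ g⁻¹ = - act K g⁻¹ (coc φ g) := by
  have h := coc_mul φ g⁻¹ g
  rw [inv_mul_cancel, coc_one] at h
  exact eq_neg_of_add_eq_zero_left h.symm

theorem coc_pow_succ (φ : Additive Γ →+ K) (g : G) (k : ℕ) :
    coc φ (g ^ (k + 1)) = coc φ g + act K g (coc φ (g ^ k)) := by
  rw [pow_succ', coc_mul]

theorem coc_add (φ ψ : Additive Γ →+ K) (g : G) : coc (φ + ψ) g = coc φ g + coc ψ g := by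
  ext y; simp [coc_apply]

theorem coc_smul (c : K) (φ : Additive Γ →+ K) (g : G) : coc (c • φ) g = c • coc φ g := by
  ext y; simp [coc_apply]

/-- evaluation of the cocycle at a point fixed by `g`. -/
theorem coc_apply_of_smul_eq (φ : Additive Γ →+ K) {g : G} {y : G ⧸ Γ} (hy : g • y = y)
    (h : (sec Γ y)⁻¹ * g * sec Γ y ∈ Γ) :
    coc φ g y = φ (Additive.ofMul ⟨(sec Γ y)⁻¹ * g * sec Γ y, h⟩) := by
  rw [coc_apply]
  congr 2
  apply Subtype.ext
  have h2 : g⁻¹ • y = y := by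
    conv_lhs => rw [← hy]
    rw [inv_smul_smul]
  simp only [gam]
  rw [h2, hy]

/-- a character whose cocycle is a coboundary vanishes. -/
theorem eq_zero_of_coc_eq_coboundary (φ : Additive Γ →+ K) (m : (G ⧸ Γ) → K)
    (h : ∀ g : G, coc φ g = act K g m - m) : φ = 0 := by
  refine AddMonoidHom.ext fun γ' => ?_
  obtain ⟨γ, rfl⟩ := Additive.ofMul.surjective γ'
  set x₀ : G ⧸ Γ := ((1 : G) : G ⧸ Γ) with hx₀
  have hfix : ∀ δ : Γ, (δ : G) • x₀ = x₀ := by
    intro δ
    rw [hx₀]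
    show (((δ : G) * 1 : G) : G ⧸ Γ) = ((1 : G) : G ⧸ Γ)
    rw [mul_one, QuotientGroup.eq, mul_one]
    exact Γ.inv_mem δ.2
  have hc : sec Γ x₀ ∈ Γ := by
    have := mk_sec Γ x₀
    rw [hx₀, QuotientGroup.eq] at this
    have h2 := Γ.inv_mem this
    simpa using h2
  have hmem : (sec Γ x₀)⁻¹ * (γ : G) * sec Γ x₀ ∈ Γ :=
    Γ.mul_mem (Γ.mul_mem (Γ.inv_mem hc) γ.2) hc
  have h1 := coc_apply_of_smul_eq φ (hfix γ) hmem
  have h2 := congrFun (h (γ : G)) x₀
  rw [h1] at h2
  simp only [Pi.sub_apply, act_apply] at h2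
  have h3 : (γ : G)⁻¹ • x₀ = x₀ := by
    conv_lhs => rw [← hfix γ]
    rw [inv_smul_smul]
  rw [h3, sub_self] at h2
  -- now conjugation invariance of φ
  set c : Γ := ⟨sec Γ x₀, hc⟩ with hcdef
  have h4 : (⟨(sec Γ x₀)⁻¹ * (γ : G) * sec Γ x₀, hmem⟩ : Γ) = c⁻¹ * γ * c := by
    apply Subtype.ext; simp [hcdef]
  rw [h4, ofMul_mul, ofMul_mul, map_add, map_add, ofMul_inv, map_neg] at h2
  simp only [AddMonoidHom.zero_apply]
  linear_combination h2

end Cocycle

end Fermat.Agent.Gateway.A2
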