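import Mathlib
import Fermat.Agent.Gateway.A2.Shapiro
import Fermat.Agent.Gateway.A2.LinAlg

set_option autoImplicit false

noncomputable section

namespace Fermat.Agent.Gateway.A2

open Module

section Operators

variable {G : Type*} [Group G] {X : Type*} [MulAction G X] (K : Type*) [Field K]

/-- the operator `g - 1` on functions. -/
def opA (g : G) : (X → K) →ₗ[K] (X → K) := act K g - LinearMap.id

@[simp] theorem opA_apply (g : G) (m : X → K) : opA K g m = act K g m - m := rfl

/-- the norm operator `1 + t + ... + t^(d-1)`. -/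
def normOp (t : G) (d : ℕ) : (X → K) →ₗ[K] (X → K) :=
  ∑ i ∈ Finset.range d, act K (t ^ i)

theorem normOp_apply (t : G) (d : ℕ) (m : X → K) :
    normOp K t d m = ∑ i ∈ Finset.range d, act K (t ^ i) m := by
  simp [normOp, LinearMap.sum_apply]

theorem normOp_opA (t : G) (d : ℕ) (m : X → K) :
    normOp K t d (opA K t m) = act K (t ^ d) m - m := by
  rw [normOp_apply]
  have h : ∀ i : ℕ, act K (t ^ i) (opA K t m) = act K (t ^ (i + 1)) m - act K (t ^ i) m := by
    intro i
    rw [opA_apply, map_sub, pow_succ, act_mul]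
  simp_rw [h]
  rw [Finset.sum_range_sub (fun i => act K (t ^ i) m), pow_zero, act_one]

theorem range_opA_le_ker_normOp {t : G} {d : ℕ} (hd : ∀ x : X, t ^ d • x = x) :
    LinearMap.range (opA K t) ≤ LinearMap.ker (normOp K t d (X := X)) := by
  rintro _ ⟨m, rfl⟩
  rw [LinearMap.mem_ker, normOp_opA, act_pow_eq_of_smul_eq K hd, sub_self]

theorem range_opA_inv (g : G) :
    LinearMap.range (opA K g⁻¹ (X := X)) = LinearMap.range (opA K g (X := X)) := by
  apply le_antisymm
  · rintro _ ⟨m, rfl⟩
    refine ⟨-(act K g⁻¹ m), ?_⟩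
    simp only [opA_apply, map_neg, act_act_inv]
    abel
  · rintro _ ⟨m, rfl⟩
    refine ⟨-(act K g m), ?_⟩
    simp only [opA_apply, map_neg, act_inv_act]
    abel

end Operators

section Generation

variable {G : Type*} [Group G] {X : Type*} [MulAction G X] (K : Type*) [Field K]

theorem opA_mem_of_mem_closure (J : Submodule K (X → K)) (S : Set G)
    (hS : ∀ g ∈ S, ∀ m : X → K, opA K g m ∈ J) :
    ∀ g ∈ Subgroup.closure S, ∀ m : X → K, opA K g m ∈ J := by
  intro g hg
  induction hg using Subgroup.closure_induction with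
  | mem x hx => exact hS x hx
  | one => intro m; simp [act_one]
  | mul x y _ _ hx hy =>
    intro m
    have : opA K (x * y) m = opA K x (act K y m) + opA K y m := by
      simp only [opA_apply, act_mul]; abel
    rw [this]
    exact J.add_mem (hx _) (hy _)
  | inv x _ hx =>
    intro m
    have : opA K x⁻¹ m = -(opA K x (act K x⁻¹ m)) := by
      simp only [opA_apply, act_act_inv]; abel
    rw [this]
    exact J.neg_mem (hx _)

end Generation

section Main

variable {G : Type*} [Group G] (Γ : Subgroup G) (K : Type*) [Field K]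

/-- characters of `Γ` killing every conjugate of a power of `t` that lies in `Γ`. -/
def parab (t : G) : Submodule K (Additive Γ →+ K) where
  carrier := {φ | ∀ (g : G) (k : ℕ) (h : g * t ^ k * g⁻¹ ∈ Γ), φ (Additive.ofMul ⟨_, h⟩) = 0}
  zero_mem' := fun _ _ _ => rfl
  add_mem' := by
    intro φ ψ hφ hψ g k h
    show φ _ + ψ _ = 0
    rw [hφ g k h, hψ g k h, add_zero]
  smul_mem' := by
    intro c φ hφ g k h
    show c • φ _ = 0
    rw [hφ g k h, smul_zero]

variable {Γ K}

theorem mem_parab {t : G} {φ : Additive Γ →+ K} :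
    φ ∈ parab Γ K t ↔
      ∀ (g : G) (k : ℕ) (h : g * t ^ k * g⁻¹ ∈ Γ), φ (Additive.ofMul ⟨_, h⟩) = 0 := Iff.rfl

/-- the cocycle as a linear map in the character. -/
def cocL (g : G) : (Additive Γ →+ K) →ₗ[K] ((G ⧸ Γ) → K) where
  toFun φ := coc φ g
  map_add' φ ψ := coc_add φ ψ g
  map_smul' c φ := coc_smul c φ g

@[simp] theorem cocL_apply (g : G) (φ : Additive Γ →+ K) : cocL g φ = coc φ g := rfl

theorem coc_pow (φ : Additive Γ →+ K) (g : G) (k : ℕ) :
    coc φ (g ^ k) = ∑ i ∈ Finset.range k, act K (g ^ i) (coc φ g) := by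
  induction k with
  | zero => simp [coc_one]
  | succ k ih =>
    rw [pow_succ, coc_mul, ih, Finset.sum_range_succ]

theorem normOp_coc (φ : Additive Γ →+ K) (t : G) (d : ℕ) :
    normOp K t d (coc φ t) = coc φ (t ^ d) := by
  rw [normOp_apply, coc_pow]

/-- pointwise vanishing: if `t ^ d` fixes `y`, the cocycle of a character in `parab t` vanishes
at `y` on `t ^ d`. -/
theorem coc_pow_apply_eq_zero_of_mem_parab {t : G} {φ : Additive Γ →+ K}
    (hφ : φ ∈ parab Γ K t) {d : ℕ} {y : G ⧸ Γ} (hd : t ^ d • y = y) :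
    coc φ (t ^ d) y = 0 := by
  have hmem : (sec Γ y)⁻¹ * t ^ d * sec Γ y ∈ Γ := by
    have h := gam_mem Γ (t ^ d) y
    rwa [hd] at h
  rw [coc_apply_of_smul_eq φ hd hmem]
  have h2 : (sec Γ y)⁻¹ * t ^ d * ((sec Γ y)⁻¹)⁻¹ ∈ Γ := by rwa [inv_inv]
  have := hφ (sec Γ y)⁻¹ d h2
  convert this using 3
  exact Subtype.ext (by simp only [inv_inv])

end Main

section Dimensions

variable {G : Type*} [Group G] {X : Type*} [MulAction G X] [Finite X] (K : Type*) [Field K]

theorem finrank_fun_eq_natCard : finrank K (X → K) = Nat.card X := by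
  classical
  have := Fintype.ofFinite X
  rw [Module.finrank_fintype_fun_eq_card, Nat.card_eq_fintype_card]

theorem finrank_range_opA_add (g : G) :
    finrank K (LinearMap.range (opA K g (X := X))) + finrank K (LinearMap.ker (opA K g (X := X)))
      = Nat.card X := by
  rw [LinearMap.finrank_range_add_finrank_ker, finrank_fun_eq_natCard]

end Dimensions

section Transitive

variable {G : Type*} [Group G] (Γ : Subgroup G) [Finite (G ⧸ Γ)] (K : Type*) [Field K]

/-- if `J` contains all `g m - m`, then it has codimension at most one. -/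
theorem natCard_le_finrank_add_one (J : Submodule K ((G ⧸ Γ) → K))
    (hJ : ∀ (g : G) (m : (G ⧸ Γ) → K), opA K g m ∈ J) :
    Nat.card (G ⧸ Γ) ≤ finrank K J + 1 := by
  classical
  have := Fintype.ofFinite (G ⧸ Γ)
  set x₀ : G ⧸ Γ := ((1 : G) : G ⧸ Γ) with hx₀
  set e : (G ⧸ Γ) → K := Pi.single x₀ 1 with he
  have htop : (⊤ : Submodule K ((G ⧸ Γ) → K)) ≤ (K ∙ e) ⊔ J := by
    intro f _
    rw [pi_eq_sum_univ f]
    refine Submodule.sum_mem _ fun x _ => Submodule.smul_mem _ _ ?_
    obtain ⟨g, rfl⟩ := QuotientGroup.mk_surjective x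
    have h1 : (fun j : G ⧸ Γ => if ((g : G) : G ⧸ Γ) = j then (1 : K) else 0) = act K g e := by
      ext j
      rw [act_apply, he, Pi.single_apply]
      have : (g⁻¹ • j = x₀) ↔ ((g : G ⧸ Γ) = j) := by
        constructor
        · intro h
          have := congrArg (fun y => g • y) h
          simp only [smul_inv_smul] at this
          rw [this, hx₀]
          show (g : G ⧸ Γ) = (((g * 1 : G)) : G ⧸ Γ)
          rw [mul_one]
        · intro h
          rw [← h, hx₀]
          show (((g⁻¹ * g : G)) : G ⧸ Γ) = ((1 : G) : G ⧸ Γ)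
          rw [inv_mul_cancel]
      simp only [this]
    rw [h1]
    have h2 : act K g e = e + opA K g e := by rw [opA_apply]; abel
    rw [h2]
    exact Submodule.add_mem _ (Submodule.mem_sup_left (Submodule.mem_span_singleton_self e))
      (Submodule.mem_sup_right (hJ g e))
  have h1 : finrank K ((G ⧸ Γ) → K) ≤ finrank K ((K ∙ e) ⊔ J : Submodule K ((G ⧸ Γ) → K)) := by
    have := Submodule.finrank_mono htop
    rwa [finrank_top] at this
  have h2 := Submodule.finrank_add_le_finrank_add_finrank (K ∙ e) J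
  have h3 : finrank K (K ∙ e) ≤ 1 := by
    have := finrank_span_le_card (R := K) ({e} : Set ((G ⧸ Γ) → K))
    simpa using this
  rw [finrank_fun_eq_natCard] at h1
  omega

end Transitive

end Fermat.Agent.Gateway.A2
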