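import Mathlib
import Fermat.Agent.Gateway.A2.Operators

set_option autoImplicit false

noncomputable section

namespace Fermat.Agent.Gateway.A2

open Module

section PerKer

variable {G : Type*} [Group G] {X : Type*} [MulAction G X] (K : Type*) [Field K]

/-- the minimal period of `y` under `g`. -/
def per (g : G) (y : X) : ℕ := Function.minimalPeriod (fun x : X => g • x) y

theorem pow_per_smul (g : G) (y : X) : g ^ per g y • y = y := by
  have h := Function.isPeriodicPt_minimalPeriod (fun x : X => g • x) y
  have h2 : (fun x : X => g • x)^[per g y] y = y := h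
  rwa [smul_iterate] at h2

theorem eq_zero_of_pow_smul_eq_of_lt_per {g : G} {y : X} {i : ℕ} (hi : i < per g y)
    (h : g ^ i • y = y) : i = 0 := by
  by_contra h0
  refine Function.not_isPeriodicPt_of_pos_of_lt_minimalPeriod h0 hi ?_
  show (fun x : X => g • x)^[i] y = y
  rw [smul_iterate]
  exact h

/-- functions whose sums over every `g`-orbit (counted once) vanish. -/
def perKer (g : G) : Submodule K (X → K) where
  carrier := {a | ∀ y : X, normOp K g (per g y) a y = 0}
  zero_mem' := fun y => by simp
  add_mem' := by
    intro a b ha hb y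
    rw [map_add, Pi.add_apply, ha y, hb y, add_zero]
  smul_mem' := by
    intro c a ha y
    rw [map_smul, Pi.smul_apply, ha y, smul_zero]

theorem mem_perKer {g : G} {a : X → K} :
    a ∈ perKer K g ↔ ∀ y : X, normOp K g (per g y) a y = 0 := Iff.rfl

/-- coboundaries lie in `perKer`. -/
theorem opA_mem_perKer (g : G) (m : X → K) : opA K g m ∈ perKer K g := by
  intro y
  rw [normOp_opA, Pi.sub_apply, act_apply]
  have h := pow_per_smul g y
  have h2 : (g ^ per g y)⁻¹ • y = y := by
    rw [inv_smul_eq_iff]
    exact h.symm
  rw [h2, sub_self]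

theorem range_opA_le_perKer (g : G) : LinearMap.range (opA K g (X := X)) ≤ perKer K g := by
  rintro _ ⟨m, rfl⟩
  exact opA_mem_perKer K g m

end PerKer

section Coc

variable {G : Type*} [Group G] {Γ : Subgroup G} {K : Type*} [Field K]

/-- the Shapiro cocycle of a character in `parab g` lies in `perKer g`. -/
theorem coc_mem_perKer {g : G} {φ : Additive Γ →+ K} (hφ : φ ∈ parab Γ K g) :
    coc φ g ∈ perKer K g (X := G ⧸ Γ) := by
  intro y
  rw [normOp_coc]
  exact coc_pow_apply_eq_zero_of_mem_parab hφ (pow_per_smul g y)

end Coc

section Dim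

variable {G : Type*} [Group G] {X : Type*} [MulAction G X] (K : Type*) [Field K]

theorem per_pos [Finite X] (g : G) (y : X) : 0 < per g y := by
  apply Function.minimalPeriod_pos_of_mem_periodicPts
  have hpos : 0 < orderOf (MulAction.toPermHom G X g) := orderOf_pos _
  refine Function.mk_mem_periodicPts hpos ?_
  show (fun x : X => g • x)^[orderOf (MulAction.toPermHom G X g)] y = y
  rw [smul_iterate]
  have h1 : (MulAction.toPermHom G X g) ^ orderOf (MulAction.toPermHom G X g) = 1 :=
    pow_orderOf_eq_one _
  rw [← map_pow] at h1
  have := congrArg (fun p : Equiv.Perm X => p y) h1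
  simpa using this

/-- the orbit-sum map, one value per orbit of the cyclic group generated by `g`. -/
def orbSum (g : G) :
    (X → K) →ₗ[K] (MulAction.orbitRel.Quotient (Subgroup.zpowers g) X → K) where
  toFun a o := normOp K g (per g (Quotient.out o)) a (Quotient.out o)
  map_add' a b := by
    funext o
    simp only [map_add, Pi.add_apply]
  map_smul' c a := by
    funext o
    simp only [map_smul, Pi.smul_apply, RingHom.id_apply]

theorem orbSum_apply (g : G) (a : X → K) (o : MulAction.orbitRel.Quotient (Subgroup.zpowers g) X) :
    orbSum K g a o = normOp K g (per g (Quotient.out o)) a (Quotient.out o) := rfl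

theorem perKer_le_ker_orbSum (g : G) : perKer K g ≤ LinearMap.ker (orbSum K g (X := X)) := by
  intro a ha
  rw [LinearMap.mem_ker]
  funext o
  exact ha _

theorem mk_pow_inv_smul (g : G) (i : ℕ) (y : X) :
    (Quotient.mk'' ((g ^ i)⁻¹ • y) : MulAction.orbitRel.Quotient (Subgroup.zpowers g) X)
      = Quotient.mk'' y := by
  apply Quotient.sound'
  rw [MulAction.orbitRel_apply]
  refine ⟨⟨(g ^ i)⁻¹, Subgroup.inv_mem _ (Subgroup.pow_mem _ (Subgroup.mem_zpowers g) i)⟩, rfl⟩

theorem orbSum_surjective [Finite X] (g : G) : Function.Surjective (orbSum K g (X := X)) := by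
  classical
  intro c
  refine ⟨fun x => if x = Quotient.out (Quotient.mk'' x :
      MulAction.orbitRel.Quotient (Subgroup.zpowers g) X) then c (Quotient.mk'' x) else 0, ?_⟩
  funext o
  rw [orbSum_apply, normOp_apply, Finset.sum_apply]
  set y : X := Quotient.out o with hy
  have hyo : (Quotient.mk'' y : MulAction.orbitRel.Quotient (Subgroup.zpowers g) X) = o :=
    Quotient.out_eq' o
  rw [Finset.sum_eq_single 0]
  · rw [pow_zero, act_one]
    simp only [hyo]
    rw [if_pos hy]
  · intro i hi hi0
    rw [act_apply]
    simp only [mk_pow_inv_smul, hyo]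
    rw [if_neg]
    intro h
    apply hi0
    have hi' : i < per g y := Finset.mem_range.mp hi
    apply eq_zero_of_pow_smul_eq_of_lt_per hi'
    have h2 : (g ^ i)⁻¹ • y = y := by rw [h, ← hy]
    have := congrArg (fun x => g ^ i • x) h2
    simp only [smul_inv_smul] at this
    exact this.symm
  · intro h0
    exact absurd (Finset.mem_range.mpr (per_pos g y)) h0

/-- number of orbits of the cyclic group generated by `g`. -/
def orbNum (g : G) (X : Type*) [MulAction G X] : ℕ :=
  Nat.card (MulAction.orbitRel.Quotient (Subgroup.zpowers g) X)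

theorem finrank_perKer_add_le [Finite X] (g : G) :
    finrank K (perKer K g (X := X)) + orbNum g X ≤ Nat.card X := by
  classical
  unfold orbNum
  have : Finite (MulAction.orbitRel.Quotient (Subgroup.zpowers g) X) := Quotient.finite _
  have h1 := LinearMap.finrank_range_add_finrank_ker (orbSum K g (X := X))
  rw [finrank_fun_eq_natCard] at h1
  have h2 : finrank K (LinearMap.range (orbSum K g (X := X)))
      = Nat.card (MulAction.orbitRel.Quotient (Subgroup.zpowers g) X) := by
    rw [LinearMap.range_eq_top.mpr (orbSum_surjective K g), finrank_top, finrank_fun_eq_natCard]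
  have h3 := Submodule.finrank_mono (perKer_le_ker_orbSum K g (X := X))
  omega

end Dim

end Fermat.Agent.Gateway.A2
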