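import Mathlib
import Fermat.Agent.Gateway.A2.OrbitSum

set_option autoImplicit false

noncomputable section

namespace Fermat.Agent.Gateway.A2

open Module

section Assembly

variable {G : Type*} [Group G] (Γ : Subgroup G) (K : Type*) [Field K]

/-- the base point of the coset space. -/
def basePt : G ⧸ Γ := ((1 : G) : G ⧸ Γ)

theorem smul_basePt (g : G) : g • basePt Γ = ((g : G) : G ⧸ Γ) := by
  show (((g * 1 : G)) : G ⧸ Γ) = (g : G ⧸ Γ)
  rw [mul_one]

/-- functions vanishing at the base point. -/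
def M0 : Submodule K ((G ⧸ Γ) → K) :=
  LinearMap.ker (LinearMap.proj (basePt Γ) : ((G ⧸ Γ) → K) →ₗ[K] K)

theorem mem_M0 {m : (G ⧸ Γ) → K} : m ∈ M0 Γ K ↔ m (basePt Γ) = 0 := by
  rw [M0, LinearMap.mem_ker]; rfl

/-- the combination map `(p₁, p₂) ↦ s⁻¹ (p₂ - p₁)`. -/
def combL (s : G) :
    ((G ⧸ Γ) → K) × ((G ⧸ Γ) → K) →ₗ[K] ((G ⧸ Γ) → K) :=
  (act K s⁻¹).comp (LinearMap.snd K _ _ - LinearMap.fst K _ _)

theorem combL_apply (s : G) (p : ((G ⧸ Γ) → K) × ((G ⧸ Γ) → K)) :
    combL Γ K s p = act K s⁻¹ (p.2 - p.1) := rfl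

/-- characters killing the conjugates of powers of `s`, `s * t` and `t` lying in `Γ`. -/
def parab3 (s t : G) : Submodule K (Additive Γ →+ K) :=
  parab Γ K s ⊓ parab Γ K (s * t) ⊓ parab Γ K t

theorem mem_parab3 {s t : G} {φ : Additive Γ →+ K} :
    φ ∈ parab3 Γ K s t ↔ (φ ∈ parab Γ K s ∧ φ ∈ parab Γ K (s * t)) ∧ φ ∈ parab Γ K t := by
  rw [parab3, Submodule.mem_inf, Submodule.mem_inf]

/-- the map `(φ, m) ↦ (c_φ(s) + (s-1) m, c_φ(s t) + (s t - 1) m)`. -/
def thetaMap (s t : G) :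
    (parab3 Γ K s t × M0 Γ K) →ₗ[K] ((G ⧸ Γ) → K) × ((G ⧸ Γ) → K) :=
  LinearMap.prod
    (((cocL s).comp (parab3 Γ K s t).subtype).comp (LinearMap.fst K _ _)
      + ((opA K s).comp (M0 Γ K).subtype).comp (LinearMap.snd K _ _))
    (((cocL (s * t)).comp (parab3 Γ K s t).subtype).comp (LinearMap.fst K _ _)
      + ((opA K (s * t)).comp (M0 Γ K).subtype).comp (LinearMap.snd K _ _))

theorem thetaMap_apply (s t : G) (e : parab3 Γ K s t × M0 Γ K) :
    thetaMap Γ K s t e =
      (coc (e.1 : Additive Γ →+ K) s + opA K s (e.2 : (G ⧸ Γ) → K),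
        coc (e.1 : Additive Γ →+ K) (s * t) + opA K (s * t) (e.2 : (G ⧸ Γ) → K)) := rfl

/-- key identity: `L (θ (φ, m)) = c_φ(t) + (t - 1) m`. -/
theorem combL_thetaMap (s t : G) (e : parab3 Γ K s t × M0 Γ K) :
    combL Γ K s (thetaMap Γ K s t e)
      = coc (e.1 : Additive Γ →+ K) t + opA K t (e.2 : (G ⧸ Γ) → K) := by
  rw [combL_apply, thetaMap_apply]
  simp only [coc_mul, opA_apply, act_mul, map_sub, map_add, act_inv_act]
  abel

theorem thetaMap_fst_mem (s t : G) (e : parab3 Γ K s t × M0 Γ K) :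
    (thetaMap Γ K s t e).1 ∈ perKer K s (X := G ⧸ Γ) := by
  rw [thetaMap_apply]
  exact Submodule.add_mem _ (coc_mem_perKer ((mem_parab3 Γ K).mp e.1.2).1.1)
    (opA_mem_perKer K s _)

theorem thetaMap_snd_mem (s t : G) (e : parab3 Γ K s t × M0 Γ K) :
    (thetaMap Γ K s t e).2 ∈ perKer K (s * t) (X := G ⧸ Γ) := by
  rw [thetaMap_apply]
  exact Submodule.add_mem _ (coc_mem_perKer ((mem_parab3 Γ K).mp e.1.2).1.2)
    (opA_mem_perKer K (s * t) _)

theorem combL_thetaMap_mem (s t : G) (e : parab3 Γ K s t × M0 Γ K) :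
    combL Γ K s (thetaMap Γ K s t e) ∈ perKer K t (X := G ⧸ Γ) := by
  rw [combL_thetaMap]
  exact Submodule.add_mem _ (coc_mem_perKer ((mem_parab3 Γ K).mp e.1.2).2)
    (opA_mem_perKer K t _)

/-- the twisted cocycle vanishes on the subgroup generated by a set where it vanishes. -/
theorem coc_add_opA_eq_zero_of_mem_closure (φ : Additive Γ →+ K) (m : (G ⧸ Γ) → K) (S : Set G)
    (hS : ∀ g ∈ S, coc φ g + opA K g m = 0) :
    ∀ g ∈ Subgroup.closure S, coc φ g + opA K g m = 0 := by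
  intro g hg
  induction hg using Subgroup.closure_induction with
  | mem x hx => exact hS x hx
  | one => simp [coc_one, act_one]
  | mul x y _ _ hx hy =>
    have : coc φ (x * y) + opA K (x * y) m
        = (coc φ x + opA K x m) + act K x (coc φ y + opA K y m) := by
      rw [coc_mul]
      simp only [opA_apply, act_mul, map_add, map_sub]
      abel
    rw [this, hx, hy, map_zero, add_zero]
  | inv x _ hx =>
    have : coc φ x⁻¹ + opA K x⁻¹ m = - act K x⁻¹ (coc φ x + opA K x m) := by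
      rw [coc_inv]
      simp only [opA_apply, map_add, map_sub, act_inv_act]
      abel
    rw [this, hx, map_zero, neg_zero]

theorem coc_zero (g : G) : coc (0 : Additive Γ →+ K) g = 0 := by
  ext y; simp [coc_apply]

/-- if the twisted cocycle vanishes identically then `φ = 0` and `m` is constant. -/
theorem eq_zero_of_coc_add_opA_eq_zero (φ : Additive Γ →+ K) (m : (G ⧸ Γ) → K)
    (hm : m (basePt Γ) = 0) (hZ : ∀ g : G, coc φ g + opA K g m = 0) : φ = 0 ∧ m = 0 := by
  have hφ0 : φ = 0 := by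
    apply eq_zero_of_coc_eq_coboundary φ (-m)
    intro g
    have := hZ g
    rw [opA_apply] at this
    rw [map_neg]
    linear_combination (exp := 1) this
  refine ⟨hφ0, ?_⟩
  have hinv : ∀ g : G, act K g m = m := by
    intro g
    have := hZ g
    rw [hφ0, coc_zero, zero_add, opA_apply] at this
    exact sub_eq_zero.mp this
  funext x
  obtain ⟨g, rfl⟩ := QuotientGroup.mk_surjective x
  have h4 := congrFun (hinv g⁻¹) (basePt Γ)
  rw [act_apply, inv_inv, smul_basePt] at h4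
  rw [h4, hm]
  rfl

theorem thetaMap_injective (s t : G) (hgen : Subgroup.closure {s, s * t} = ⊤) :
    Function.Injective (thetaMap Γ K s t) := by
  rw [injective_iff_map_eq_zero]
  intro e he
  rw [thetaMap_apply, Prod.mk_eq_zero] at he
  obtain ⟨hes, heu⟩ := he
  have hZ := coc_add_opA_eq_zero_of_mem_closure Γ K (e.1 : Additive Γ →+ K)
    (e.2 : (G ⧸ Γ) → K) ({s, s * t} : Set G) (by
      intro g hg
      rcases hg with rfl | hg
      · exact hes
      · rw [Set.mem_singleton_iff] at hg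
        rw [hg]; exact heu)
  have hZ' : ∀ g : G, coc (e.1 : Additive Γ →+ K) g + opA K g (e.2 : (G ⧸ Γ) → K) = 0 :=
    fun g => hZ g (by rw [hgen]; trivial)
  obtain ⟨h1, h2⟩ := eq_zero_of_coc_add_opA_eq_zero Γ K _ _ ((mem_M0 Γ K).mp e.2.2) hZ'
  apply Prod.ext
  · exact Subtype.ext h1
  · exact Subtype.ext h2

/-- `range (s⁻¹ - 1) ⊔ range (t - 1)` contains all `g m - m`. -/
theorem opA_mem_sup (s t : G) (hgen : Subgroup.closure {s, s * t} = ⊤) (g : G)
    (m : (G ⧸ Γ) → K) :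
    opA K g m ∈ LinearMap.range (opA K s⁻¹ (X := G ⧸ Γ)) ⊔ LinearMap.range (opA K t (X := G ⧸ Γ)) := by
  refine opA_mem_of_mem_closure K _ ({s, s * t} : Set G) ?_ g (by rw [hgen]; trivial) m
  intro x hx m'
  rcases hx with rfl | hx
  · refine Submodule.mem_sup_left ?_
    rw [range_opA_inv]
    exact ⟨m', rfl⟩
  · rw [Set.mem_singleton_iff] at hx
    rw [hx]
    have : opA K (s * t) m' = opA K s (act K t m') + opA K t m' := by
      simp only [opA_apply, act_mul]; abel
    rw [this]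
    refine Submodule.add_mem _ (Submodule.mem_sup_left ?_) (Submodule.mem_sup_right ⟨m', rfl⟩)
    rw [range_opA_inv]
    exact ⟨_, rfl⟩

theorem sup_le_map_combL (s t : G) :
    LinearMap.range (opA K s⁻¹ (X := G ⧸ Γ)) ⊔ LinearMap.range (opA K t (X := G ⧸ Γ))
      ≤ Submodule.map (combL Γ K s)
          ((perKer K s (X := G ⧸ Γ)).prod (perKer K (s * t) (X := G ⧸ Γ)))
        ⊔ perKer K t (X := G ⧸ Γ) := by
  apply sup_le
  · rintro _ ⟨m, rfl⟩
    refine Submodule.mem_sup_left (Submodule.mem_map.mpr ⟨(opA K s m, 0), ?_, ?_⟩)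
    · rw [Submodule.mem_prod]
      exact ⟨opA_mem_perKer K s m, Submodule.zero_mem _⟩
    · rw [combL_apply]
      simp only [zero_sub, map_neg, opA_apply, map_sub, act_inv_act]
      abel
  · exact le_trans (range_opA_le_perKer K t) le_sup_right

variable [Finite (G ⧸ Γ)]

theorem natCard_le_finrank_M0_add_one : Nat.card (G ⧸ Γ) ≤ finrank K (M0 Γ K) + 1 := by
  have hrn := LinearMap.finrank_range_add_finrank_ker
    (LinearMap.proj (basePt Γ) : ((G ⧸ Γ) → K) →ₗ[K] K)
  rw [finrank_fun_eq_natCard] at hrn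
  have hle : finrank K (LinearMap.range (LinearMap.proj (basePt Γ) : ((G ⧸ Γ) → K) →ₗ[K] K)) ≤ 1 := by
    have := Submodule.finrank_le
      (LinearMap.range (LinearMap.proj (basePt Γ) : ((G ⧸ Γ) → K) →ₗ[K] K))
    rwa [finrank_self] at this
  have : finrank K (M0 Γ K)
      = finrank K (LinearMap.ker (LinearMap.proj (basePt Γ) : ((G ⧸ Γ) → K) →ₗ[K] K)) := rfl
  omega

/-- **Main abstract bound, any field.**  `s`, `s * t` generate `G`. -/
theorem finrank_parab3_add_le (s t : G) (hgen : Subgroup.closure {s, s * t} = ⊤) :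
    Module.Finite K (parab3 Γ K s t) ∧
      finrank K (parab3 Γ K s t)
        + orbNum s (G ⧸ Γ) + orbNum (s * t) (G ⧸ Γ) + orbNum t (G ⧸ Γ)
        ≤ Nat.card (G ⧸ Γ) + 2 := by
  classical
  have key := @finrank_add_le_of_injective_of_le_sup K _ ((G ⧸ Γ) → K) _ _ _
    (parab3 Γ K s t × M0 Γ K) _ _
  have key2 := key (perKer K s (X := G ⧸ Γ)) (perKer K (s * t) (X := G ⧸ Γ))
      (perKer K t (X := G ⧸ Γ))
      (LinearMap.range (opA K s⁻¹ (X := G ⧸ Γ)) ⊔ LinearMap.range (opA K t (X := G ⧸ Γ)))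
      (combL Γ K s)
  have key3 := key2 (sup_le_map_combL Γ K s t)
  have key4 := key3 (thetaMap Γ K s t)
  have key5 := key4 (thetaMap_injective Γ K s t hgen)
  have key6 := key5 (thetaMap_fst_mem Γ K s t) (thetaMap_snd_mem Γ K s t)
  obtain ⟨hfinE, hcount⟩ := key6 (combL_thetaMap_mem Γ K s t)
  have hfinV : Module.Finite K (parab3 Γ K s t) :=
    Module.Finite.of_surjective (LinearMap.fst K (parab3 Γ K s t) (M0 Γ K))
      LinearMap.fst_surjective
  refine ⟨hfinV, ?_⟩
  have hfree : Module.Free K (parab3 Γ K s t) := Module.Free.of_divisionRing K (parab3 Γ K s t)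
  have hE : finrank K (parab3 Γ K s t × M0 Γ K)
      = finrank K (parab3 Γ K s t) + finrank K (M0 Γ K) := Module.finrank_prod
  have hM₀ := natCard_le_finrank_M0_add_one Γ K
  have hJdim := natCard_le_finrank_add_one Γ K _ (opA_mem_sup Γ K s t hgen)
  have hs' := finrank_perKer_add_le (X := G ⧸ Γ) K s
  have hu' := finrank_perKer_add_le (X := G ⧸ Γ) K (s * t)
  have ht' := finrank_perKer_add_le (X := G ⧸ Γ) K t
  have hn : 0 < Nat.card (G ⧸ Γ) := Nat.card_pos
  omega

end Assembly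

end Fermat.Agent.Gateway.A2
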