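/-
helper63 (P-GATEWAY, part (a2), counting half).
Abstract statement: a finitely generated abelian group `A` such that `Hom(A, ℂ)` has dimension `r`
and `#Hom(A, ℤ/l) ≤ l ^ r` for every prime `l` is free of rank `r`; hence
`#Hom(A, ℤ/m) = m ^ r` for every `m ≥ 1`.
-/
import Mathlib

set_option autoImplicit false

namespace Fermat.Agent.Gateway.A2.Count

open scoped DirectSum

section HomEquiv

variable {F T B : Type*} [AddCommGroup F] [AddCommGroup T] [AddCommGroup B]

/-- Homomorphisms out of a product. -/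
def homProdEquiv : (F × T →+ B) ≃ (F →+ B) × (T →+ B) where
  toFun φ := (φ.comp (AddMonoidHom.inl F T), φ.comp (AddMonoidHom.inr F T))
  invFun p := p.1.coprod p.2
  left_inv φ := by
    ext x
    simp
  right_inv p := by
    ext x
    · simp
    · simp

/-- Homomorphisms out of a free abelian group of finite rank. -/
noncomputable def homFreeEquiv (n : ℕ) : ((Fin n →₀ ℤ) →+ B) ≃ (Fin n → B) :=
  (Finsupp.liftAddHom (α := Fin n) (M := ℤ) (N := B)).symm.toEquiv.trans
    (Equiv.piCongrRight fun _ => (zmultiplesAddHom B).symm.toEquiv)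

theorem homFreeEquiv_apply (n : ℕ) (φ : (Fin n →₀ ℤ) →+ B) (i : Fin n) :
    homFreeEquiv n φ i = φ (Finsupp.single i 1) := by
  simp [homFreeEquiv]

/-- The combined description of `Hom(A, B)` for `A ≃ ℤ^n × T`. -/
noncomputable def homEquiv {A : Type*} [AddCommGroup A] {n : ℕ} (e : A ≃+ (Fin n →₀ ℤ) × T) :
    (A →+ B) ≃ (Fin n → B) × (T →+ B) :=
  (e.addMonoidHomCongrLeftEquiv.trans homProdEquiv).trans
    ((homFreeEquiv n).prodCongr (Equiv.refl _))

theorem homEquiv_fst_apply {A : Type*} [AddCommGroup A] {n : ℕ} (e : A ≃+ (Fin n →₀ ℤ) × T)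
    (φ : A →+ B) (i : Fin n) :
    (homEquiv e φ).1 i = φ (e.symm (Finsupp.single i 1, 0)) := by
  simp [homEquiv, homProdEquiv, homFreeEquiv_apply]

theorem homEquiv_snd_apply {A : Type*} [AddCommGroup A] {n : ℕ} (e : A ≃+ (Fin n →₀ ℤ) × T)
    (φ : A →+ B) (t : T) :
    (homEquiv e φ).2 t = φ (e.symm (0, t)) := by
  simp [homEquiv, homProdEquiv]

end HomEquiv

section Finite

variable {T : Type*} [AddCommGroup T] [Finite T]

/-- A finite abelian group has no nonzero homomorphism to `ℂ`. -/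
theorem hom_complex_eq_zero (ψ : T →+ ℂ) : ψ = 0 := by
  ext t
  have h1 : addOrderOf t • t = 0 := addOrderOf_nsmul_eq_zero t
  have h2 : 0 < addOrderOf t := addOrderOf_pos t
  have h3 : addOrderOf t • ψ t = 0 := by rw [← map_nsmul, h1, map_zero]
  rw [nsmul_eq_mul] at h3
  rcases mul_eq_zero.mp h3 with h | h
  · exact absurd (Nat.cast_eq_zero.mp h) h2.ne'
  · simpa using h

instance finite_hom (m : ℕ) [NeZero m] : Finite (T →+ ZMod m) :=
  Finite.of_injective (fun f : T →+ ZMod m => (f : T → ZMod m)) DFunLike.coe_injective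

/-- A nonzero homomorphism to `ZMod l` (`l` prime) has `l` distinct multiples. -/
theorem le_card_hom_of_ne_zero (l : ℕ) [Fact l.Prime] (ψ : T →+ ZMod l) (hψ : ψ ≠ 0) :
    l ≤ Nat.card (T →+ ZMod l) := by
  obtain ⟨t0, ht0⟩ : ∃ t, ψ t ≠ 0 := by
    by_contra h
    exact hψ (AddMonoidHom.ext fun t => by
      by_contra ht
      exact h ⟨t, ht⟩)
  have hinj : Function.Injective
      (fun c : ZMod l => (AddMonoidHom.mulLeft c).comp ψ) := by
    intro c c' h
    have := DFunLike.congr_fun h t0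
    simp only [AddMonoidHom.coe_comp, AddMonoidHom.coe_mulLeft, Function.comp_apply] at this
    exact mul_right_cancel₀ ht0 this
  have := Nat.card_le_card_of_injective _ hinj
  rwa [Nat.card_zmod] at this

end Finite

section DirectSumZMod

variable {ι : Type} [Fintype ι] (p : ι → ℕ) (hp : ∀ i, (p i).Prime) (e : ι → ℕ)

include hp in
theorem finite_directSum : Finite (⨁ i : ι, ZMod (p i ^ e i)) := by
  have : ∀ i, NeZero (p i ^ e i) := fun i => ⟨pow_ne_zero _ (hp i).ne_zero⟩
  exact Finite.of_equiv _ DFinsupp.equivFunOnFintype.symm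

omit [Fintype ι] in
theorem subsingleton_directSum (he : ∀ i, e i = 0) : Subsingleton (⨁ i : ι, ZMod (p i ^ e i)) := by
  have : ∀ i, Subsingleton (ZMod (p i ^ e i)) := fun i => by
    rw [he i, pow_zero]
    infer_instance
  refine ⟨fun a b => DFinsupp.ext fun i => Subsingleton.elim _ _⟩

omit [Fintype ι] in
include hp in
/-- A nonzero homomorphism to `ZMod (p i)` when `e i ≠ 0`. -/
theorem exists_hom_ne_zero (i : ι) (he : e i ≠ 0) :
    ∃ ψ : (⨁ i : ι, ZMod (p i ^ e i)) →+ ZMod (p i), ψ ≠ 0 := by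
  classical
  have hdvd : p i ∣ p i ^ e i := dvd_pow_self _ he
  refine ⟨((ZMod.castHom hdvd (ZMod (p i))).toAddMonoidHom).comp
    (DFinsupp.evalAddMonoidHom i), fun h => ?_⟩
  have h1 := DFunLike.congr_fun h (DirectSum.of (fun i => ZMod (p i ^ e i)) i 1)
  have h2 : (ZMod.castHom hdvd (ZMod (p i)))
      ((DirectSum.of (fun i => ZMod (p i ^ e i)) i 1) i) = 0 := h1
  rw [DirectSum.of_eq_same, map_one] at h2
  have : Fact (1 < p i) := ⟨(hp i).one_lt⟩
  exact one_ne_zero h2

end DirectSumZMod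

section Main

variable (A : Type*) [AddCommGroup A] [AddGroup.FG A]

/-- **Abstract count.** Let `A` be a finitely generated abelian group, `r : ℕ`, such that
`Hom(A, ℂ)` has `ℂ`-dimension `r` and `#Hom(A, ℤ/l) ≤ l ^ r` for all primes `l`.
Then `A ≃ ℤ^r`. -/
theorem nonempty_addEquiv_free (r : ℕ) (hC : Module.finrank ℂ (A →+ ℂ) = r)
    (hle : ∀ l : ℕ, l.Prime → Nat.card (A →+ ZMod l) ≤ l ^ r) :
    Nonempty (A ≃+ (Fin r →₀ ℤ)) := by
  classical
  obtain ⟨n, ι, _, p, hp, e, ⟨f⟩⟩ := AddCommGroup.equiv_free_prod_directSum_zmod A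
  have := finite_directSum p hp e
  -- `r ≤ n` from the complex dimension
  have h1 : r ≤ n := by
    let L : (A →+ ℂ) →ₗ[ℂ] (Fin n → ℂ) :=
      { toFun := fun φ i => φ (f.symm (Finsupp.single i 1, 0))
        map_add' := fun φ ψ => rfl
        map_smul' := fun c φ => rfl }
    have hL : Function.Injective L := by
      intro φ ψ h
      apply (homEquiv f).injective
      refine Prod.ext (funext fun i => ?_)
        ((hom_complex_eq_zero _).trans (hom_complex_eq_zero _).symm)
      rw [homEquiv_fst_apply, homEquiv_fst_apply]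
      exact congrFun h i
    have := LinearMap.finrank_le_finrank_of_injective hL
    rwa [hC, Module.finrank_fintype_fun_eq_card, Fintype.card_fin] at this
  -- `#Hom(A, ZMod l) = l ^ n * #Hom(T, ZMod l)`
  have hcard : ∀ (m : ℕ) [NeZero m], Nat.card (A →+ ZMod m)
      = m ^ n * Nat.card ((⨁ i : ι, ZMod (p i ^ e i)) →+ ZMod m) := by
    intro m _
    rw [Nat.card_congr (homEquiv f), Nat.card_prod, Nat.card_fun, Nat.card_zmod, Nat.card_fin]
  -- `n ≤ r` from the prime 2
  have h2 : n ≤ r := by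
    have : Fact (Nat.Prime 2) := ⟨Nat.prime_two⟩
    have h := hle 2 Nat.prime_two
    rw [hcard 2] at h
    have hpos : 0 < Nat.card ((⨁ i : ι, ZMod (p i ^ e i)) →+ ZMod 2) := Nat.card_pos
    have : 2 ^ n ≤ 2 ^ r := le_trans (Nat.le_mul_of_pos_right _ hpos) h
    exact (Nat.pow_le_pow_iff_right (by norm_num)).mp this
  have hnr : n = r := le_antisymm h2 h1
  -- the torsion part is trivial
  have he : ∀ i, e i = 0 := by
    by_contra hne
    obtain ⟨i, hi⟩ := not_forall.mp hne
    have : Fact (p i).Prime := ⟨hp i⟩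
    obtain ⟨ψ, hψ⟩ := exists_hom_ne_zero p hp e i hi
    have h := hle (p i) (hp i)
    rw [hcard (p i), hnr] at h
    have h3 := le_card_hom_of_ne_zero (p i) ψ hψ
    have h4 : p i ^ r * p i ≤ p i ^ r := le_trans (Nat.mul_le_mul_left _ h3) h
    have h5 : 0 < p i ^ r := pow_pos (hp i).pos r
    have h6 : 1 < p i := (hp i).one_lt
    nlinarith
  have := subsingleton_directSum p e he
  have : Unique (⨁ i : ι, ZMod (p i ^ e i)) := Unique.mk' _
  exact ⟨(f.trans AddEquiv.prodUnique).trans (hnr ▸ AddEquiv.refl _)⟩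

/-- `Hom(A, ℤ/m)` is finite for a finitely generated abelian group `A`. -/
theorem finite_hom_zmod (m : ℕ) [NeZero m] : Finite (A →+ ZMod m) := by
  obtain ⟨n, ι, _, p, hp, e, ⟨f⟩⟩ := AddCommGroup.equiv_free_prod_directSum_zmod A
  have := finite_directSum p hp e
  exact Finite.of_equiv _ (homEquiv f).symm

/-- Variant of `nonempty_addEquiv_free` with the hypotheses at the primes expressed through
dimensions over `𝔽_l`. -/
theorem nonempty_addEquiv_free' (r : ℕ) (hC : Module.finrank ℂ (A →+ ℂ) = r)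
    (hle : ∀ (l : ℕ) [Fact l.Prime], Module.finrank (ZMod l) (A →+ ZMod l) ≤ r) :
    Nonempty (A ≃+ (Fin r →₀ ℤ)) := by
  refine nonempty_addEquiv_free A r hC fun l hl => ?_
  have : Fact l.Prime := ⟨hl⟩
  have := finite_hom_zmod A l
  have : Module.Finite (ZMod l) (A →+ ZMod l) := Module.Finite.of_finite
  rw [Module.natCard_eq_pow_finrank (K := ZMod l), Nat.card_zmod]
  exact Nat.pow_le_pow_right hl.pos (hle l)

/-- **Abstract count, cardinality form.** -/
theorem card_hom_zmod (r : ℕ) (hC : Module.finrank ℂ (A →+ ℂ) = r)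
    (hle : ∀ l : ℕ, l.Prime → Nat.card (A →+ ZMod l) ≤ l ^ r) (m : ℕ) [NeZero m] :
    Nat.card (A →+ ZMod m) = m ^ r := by
  obtain ⟨g⟩ := nonempty_addEquiv_free A r hC hle
  rw [Nat.card_congr (g.addMonoidHomCongrLeftEquiv.trans (homFreeEquiv r)), Nat.card_fun,
    Nat.card_zmod, Nat.card_fin]

/-- **Abstract count, cardinality form**, hypotheses through dimensions over `𝔽_l`. -/
theorem card_hom_zmod' (r : ℕ) (hC : Module.finrank ℂ (A →+ ℂ) = r)
    (hle : ∀ (l : ℕ) [Fact l.Prime], Module.finrank (ZMod l) (A →+ ZMod l) ≤ r)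
    (m : ℕ) [NeZero m] : Nat.card (A →+ ZMod m) = m ^ r := by
  obtain ⟨g⟩ := nonempty_addEquiv_free' A r hC hle
  rw [Nat.card_congr (g.addMonoidHomCongrLeftEquiv.trans (homFreeEquiv r)), Nat.card_fun,
    Nat.card_zmod, Nat.card_fin]

end Main

end Fermat.Agent.Gateway.A2.Count
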