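import Mathlib

/-!
P-GATEWAY part (a2): characters of a subgroup of `SL(2, ℤ)` that vanish on all elements of
trace `t` with `t ^ 2 ≤ 4` (parabolic, elliptic and `± 1`).
-/

set_option autoImplicit false

namespace Fermat.Agent.Gateway.A2

open scoped MatrixGroups

/-- `γ` is parabolic, elliptic or `± 1`: its trace `t` satisfies `t ^ 2 ≤ 4`. -/
def IsPE (γ : SL(2, ℤ)) : Prop :=
  ((γ : Matrix (Fin 2) (Fin 2) ℤ).trace) ^ 2 ≤ 4

/-- additive characters of `Γ` with values in the `R`-module `B` that vanish on all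
parabolic and elliptic elements (and on `± 1`). -/
def homPE (R : Type*) [Semiring R] (Γ : Subgroup SL(2, ℤ)) (B : Type*) [AddCommGroup B]
    [Module R B] : Submodule R (Additive Γ →+ B) where
  carrier := {φ | ∀ γ : Γ, IsPE (γ : SL(2, ℤ)) → φ (Additive.ofMul γ) = 0}
  zero_mem' := fun _ _ => rfl
  add_mem' := by
    intro φ ψ hφ hψ γ hγ
    show φ (Additive.ofMul γ) + ψ (Additive.ofMul γ) = 0
    rw [hφ γ hγ, hψ γ hγ, add_zero]
  smul_mem' := by
    intro c φ hφ γ hγ
    show c • φ (Additive.ofMul γ) = 0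
    rw [hφ γ hγ, smul_zero]

theorem mem_homPE {R : Type*} [Semiring R] {Γ : Subgroup SL(2, ℤ)} {B : Type*} [AddCommGroup B]
    [Module R B] {φ : Additive Γ →+ B} :
    φ ∈ homPE R Γ B ↔ ∀ γ : Γ, IsPE (γ : SL(2, ℤ)) → φ (Additive.ofMul γ) = 0 := Iff.rfl

end Fermat.Agent.Gateway.A2
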