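/-
helper63 (P-GATEWAY, part (a2), counting half): bridge from the abstract count to `homPE`.
The universal quotient `PEQuot Γ = Γ^ab / ⟨parabolic, elliptic, ±1⟩` represents `homPE`.
-/
import Fermat.Agent.Gateway.A2.Count
import Fermat.Agent.Gateway.A2.Defs

set_option autoImplicit false

namespace Fermat.Agent.Gateway.A2.Count

open scoped MatrixGroups

variable (Γ : Subgroup SL(2, ℤ))

/-- The subgroup of `Γ^ab` generated by the classes of the elements of trace `t`, `t ^ 2 ≤ 4`. -/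
def peSubgroup : Subgroup (Abelianization Γ) :=
  Subgroup.closure (Abelianization.of '' {γ : Γ | IsPE (γ : SL(2, ℤ))})

/-- The universal quotient `Γ^ab / ⟨parabolic, elliptic, ±1⟩`. -/
abbrev PEQuot : Type := Abelianization Γ ⧸ peSubgroup Γ

/-- The canonical projection `Γ → PEQuot Γ`. -/
def peProj : Γ →* PEQuot Γ := (QuotientGroup.mk' (peSubgroup Γ)).comp Abelianization.of

theorem peProj_surjective : Function.Surjective (peProj Γ) := by
  intro x
  obtain ⟨y, rfl⟩ := QuotientGroup.mk'_surjective (peSubgroup Γ) x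
  obtain ⟨g, rfl⟩ := QuotientGroup.mk'_surjective (commutator Γ) y
  exact ⟨g, rfl⟩

theorem peProj_eq_one (γ : Γ) (h : IsPE (γ : SL(2, ℤ))) : peProj Γ γ = 1 := by
  unfold peProj
  rw [MonoidHom.comp_apply, QuotientGroup.mk'_apply, QuotientGroup.eq_one_iff]
  exact Subgroup.subset_closure ⟨γ, h, rfl⟩

section Bridge

variable (R : Type*) [Semiring R] (B : Type*) [AddCommGroup B] [Module R B]

/-- Restriction along the projection, as an `R`-linear map. -/
def peRes : (Additive (PEQuot Γ) →+ B) →ₗ[R] (Additive Γ →+ B) where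
  toFun φ := φ.comp (MonoidHom.toAdditive (peProj Γ))
  map_add' _ _ := rfl
  map_smul' _ _ := rfl

theorem peRes_apply (φ : Additive (PEQuot Γ) →+ B) (γ : Γ) :
    peRes Γ R B φ (Additive.ofMul γ) = φ (Additive.ofMul (peProj Γ γ)) := rfl

theorem peRes_injective : Function.Injective (peRes Γ R B) := by
  intro φ ψ h
  refine AddMonoidHom.ext fun x => ?_
  obtain ⟨γ, rfl⟩ := peProj_surjective Γ (Additive.toMul x)
  have := DFunLike.congr_fun h (Additive.ofMul γ)
  rwa [peRes_apply, peRes_apply] at this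

/-- The lift of an element of `homPE` to the universal quotient. -/
def peLift (ψ : Additive Γ →+ B) (hψ : ψ ∈ homPE R Γ B) : Additive (PEQuot Γ) →+ B :=
  MonoidHom.toAdditiveLeft
    (QuotientGroup.lift (peSubgroup Γ)
      (Abelianization.lift (AddMonoidHom.toMultiplicativeRight ψ)) (by
        intro x hx
        have hle : peSubgroup Γ ≤
            (Abelianization.lift (AddMonoidHom.toMultiplicativeRight ψ)).ker := by
          unfold peSubgroup
          rw [Subgroup.closure_le]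
          rintro _ ⟨γ, hγ, rfl⟩
          rw [SetLike.mem_coe, MonoidHom.mem_ker, Abelianization.lift_apply_of]
          show Multiplicative.ofAdd (ψ (Additive.ofMul γ)) = 1
          rw [hψ γ hγ]
          rfl
        exact hle hx))

theorem peRes_peLift (ψ : Additive Γ →+ B) (hψ : ψ ∈ homPE R Γ B) :
    peRes Γ R B (peLift Γ R B ψ hψ) = ψ := by
  refine AddMonoidHom.ext fun γ => ?_
  rfl

theorem range_peRes : LinearMap.range (peRes Γ R B) = homPE R Γ B := by
  apply le_antisymm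
  · rintro _ ⟨φ, rfl⟩
    intro γ hγ
    rw [peRes_apply, peProj_eq_one Γ γ hγ]
    exact map_zero φ
  · intro ψ hψ
    exact ⟨peLift Γ R B ψ hψ, peRes_peLift Γ R B ψ hψ⟩

/-- `homPE R Γ B` is represented by the universal quotient. -/
noncomputable def homPEEquiv : (Additive (PEQuot Γ) →+ B) ≃ₗ[R] homPE R Γ B :=
  (LinearEquiv.ofInjective (peRes Γ R B) (peRes_injective Γ R B)).trans
    (LinearEquiv.ofEq _ _ (range_peRes Γ R B))

end Bridge

section Final

instance fg_SL2Z : Group.FG SL(2, ℤ) :=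
  Group.fg_iff.mpr ⟨{ModularGroup.S, ModularGroup.T}, SpecialLinearGroup.SL2Z_generators,
    Set.toFinite _⟩

variable [Γ.FiniteIndex]

instance fg_PEQuot : Group.FG (PEQuot Γ) := Group.fg_of_surjective (peProj_surjective Γ)

/-- **(a2), counting half.** If `dim_ℂ homPE(Γ, ℂ) = r` and `dim_{𝔽_l} homPE(Γ, 𝔽_l) ≤ r` for every
prime `l`, then `Γ^ab / ⟨parabolic, elliptic, ±1⟩ ≃ ℤ^r`. -/
theorem nonempty_PEQuot_addEquiv (r : ℕ) (hC : Module.finrank ℂ (homPE ℂ Γ ℂ) = r)
    (hle : ∀ (l : ℕ) [Fact l.Prime], Module.finrank (ZMod l) (homPE (ZMod l) Γ (ZMod l)) ≤ r) :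
    Nonempty (Additive (PEQuot Γ) ≃+ (Fin r →₀ ℤ)) := by
  refine nonempty_addEquiv_free' (Additive (PEQuot Γ)) r ?_ ?_
  · rw [(homPEEquiv Γ ℂ ℂ).finrank_eq, hC]
  · intro l _
    rw [(homPEEquiv Γ (ZMod l) (ZMod l)).finrank_eq]
    exact hle l

/-- **(a2), counting half, cardinality form.** Under the same hypotheses,
`#homPE(Γ, ℤ/n) = n ^ r` for every `n ≥ 1`. -/
theorem card_homPE_zmod (r : ℕ) (hC : Module.finrank ℂ (homPE ℂ Γ ℂ) = r)
    (hle : ∀ (l : ℕ) [Fact l.Prime], Module.finrank (ZMod l) (homPE (ZMod l) Γ (ZMod l)) ≤ r)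
    (n : ℕ) [NeZero n] : Nat.card (homPE (ZMod n) Γ (ZMod n)) = n ^ r := by
  rw [← Nat.card_congr (homPEEquiv Γ (ZMod n) (ZMod n)).toEquiv]
  refine card_hom_zmod' (Additive (PEQuot Γ)) r ?_ ?_ n
  · rw [(homPEEquiv Γ ℂ ℂ).finrank_eq, hC]
  · intro l _
    rw [(homPEEquiv Γ (ZMod l) (ZMod l)).finrank_eq]
    exact hle l

/-- Multiplicative characters with values in a cyclic group `C`, trivial on all elements of
trace `t` with `t ^ 2 ≤ 4`. -/
def charPE (C : Type*) [CommGroup C] : Subgroup (Γ →* C) where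
  carrier := {χ | ∀ γ : Γ, IsPE (γ : SL(2, ℤ)) → χ γ = 1}
  one_mem' := fun _ _ => rfl
  mul_mem' := by
    intro χ ψ hχ hψ γ hγ
    rw [MonoidHom.mul_apply, hχ γ hγ, hψ γ hγ, mul_one]
  inv_mem' := by
    intro χ hχ γ hγ
    rw [MonoidHom.inv_apply, hχ γ hγ, inv_one]

/-- Characters into a cyclic group of order `n` correspond to `homPE(Γ, ℤ/n)`. -/
noncomputable def charPEEquiv (C : Type*) [CommGroup C] [IsCyclic C] (n : ℕ) (hn : Nat.card C = n) :
    charPE Γ C ≃ homPE (ZMod n) Γ (ZMod n) := by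
  subst hn
  let e : Multiplicative (ZMod (Nat.card C)) ≃* C := zmodCyclicMulEquiv inferInstance
  refine
    { toFun := fun χ => ⟨MonoidHom.toAdditiveLeft (e.symm.toMonoidHom.comp χ.1), ?_⟩
      invFun := fun φ => ⟨e.toMonoidHom.comp (AddMonoidHom.toMultiplicativeRight φ.1), ?_⟩
      left_inv := ?_
      right_inv := ?_ }
  · intro γ hγ
    show Multiplicative.toAdd (e.symm (χ.1 γ)) = 0
    rw [χ.2 γ hγ, map_one]
    rfl
  · intro γ hγ
    show e (Multiplicative.ofAdd (φ.1 (Additive.ofMul γ))) = 1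
    rw [φ.2 γ hγ]
    exact map_one e
  · intro χ
    apply Subtype.ext
    refine MonoidHom.ext fun γ => ?_
    show e (Multiplicative.ofAdd (Multiplicative.toAdd (e.symm (χ.1 γ)))) = χ.1 γ
    simp
  · intro φ
    apply Subtype.ext
    refine AddMonoidHom.ext fun γ => ?_
    show Multiplicative.toAdd (e.symm (e (Multiplicative.ofAdd (φ.1 γ)))) = φ.1 γ
    simp

/-- **(a2), counting half, character form.** `#Hom_pe(Γ, C) = n ^ r` for a cyclic group `C` of
order `n ≥ 1`, e.g. `C = μ_n(ℂ)`. -/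
theorem card_charPE (r : ℕ) (hC : Module.finrank ℂ (homPE ℂ Γ ℂ) = r)
    (hle : ∀ (l : ℕ) [Fact l.Prime], Module.finrank (ZMod l) (homPE (ZMod l) Γ (ZMod l)) ≤ r)
    (C : Type*) [CommGroup C] [IsCyclic C] (n : ℕ) [NeZero n] (hn : Nat.card C = n) :
    Nat.card (charPE Γ C) = n ^ r := by
  rw [Nat.card_congr (charPEEquiv Γ C n hn)]
  exact card_homPE_zmod Γ r hC hle n

/-- The case `C = μ_n(ℂ)`. -/
theorem card_charPE_rootsOfUnity (r : ℕ) (hC : Module.finrank ℂ (homPE ℂ Γ ℂ) = r)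
    (hle : ∀ (l : ℕ) [Fact l.Prime], Module.finrank (ZMod l) (homPE (ZMod l) Γ (ZMod l)) ≤ r)
    (n : ℕ) [NeZero n] : Nat.card (charPE Γ (rootsOfUnity n ℂ)) = n ^ r := by
  exact card_charPE Γ r hC hle (rootsOfUnity n ℂ) n (Complex.card_rootsOfUnity n)

end Final

end Fermat.Agent.Gateway.A2.Count
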