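import Mathlib
import Fermat.Prelude.Def_ModularCurve_GenusNumerics
import Fermat.Agent.Gateway.A2.Defs
import Fermat.Agent.Gateway.A2.Bound
import Fermat.Agent.S24.PartV.Main

/-!
P-GATEWAY part (a2): for every field `k`, the space of characters of `Γ₀(N)` with values in `k`
that vanish on parabolic and elliptic elements has dimension at most `2 g(X₀(N))`.
-/

set_option autoImplicit false

noncomputable section

namespace Fermat.Agent.Gateway.A2

open scoped MatrixGroups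
open ModularGroup Matrix Module

theorem S_pow_four : (S : SL(2, ℤ)) ^ 4 = 1 := by
  ext i j
  fin_cases i <;> fin_cases j <;>
    simp [pow_succ, coe_S, Matrix.mul_apply, Fin.sum_univ_two]

theorem ST_pow_six : ((S * T : SL(2, ℤ))) ^ 6 = 1 := by
  ext i j
  fin_cases i <;> fin_cases j <;>
    simp [pow_succ, coe_S, coe_T, Matrix.mul_apply, Fin.sum_univ_two]

theorem trace_conj (g x : SL(2, ℤ)) :
    ((g * x * g⁻¹ : SL(2, ℤ)) : Matrix (Fin 2) (Fin 2) ℤ).trace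
      = (x : Matrix (Fin 2) (Fin 2) ℤ).trace := by
  have h1 : ((g * x * g⁻¹ : SL(2, ℤ)) : Matrix (Fin 2) (Fin 2) ℤ)
      = (g : Matrix (Fin 2) (Fin 2) ℤ) * (x : Matrix (Fin 2) (Fin 2) ℤ)
        * ((g⁻¹ : SL(2, ℤ)) : Matrix (Fin 2) (Fin 2) ℤ) := by
    simp
  rw [h1, Matrix.trace_mul_comm, ← mul_assoc]
  have h2 : ((g⁻¹ : SL(2, ℤ)) : Matrix (Fin 2) (Fin 2) ℤ) * (g : Matrix (Fin 2) (Fin 2) ℤ) = 1 := by
    simp [Matrix.adjugate_mul]
  rw [h2, one_mul]

theorem isPE_conj_iff (g x : SL(2, ℤ)) : IsPE (g * x * g⁻¹) ↔ IsPE x := by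
  unfold IsPE
  rw [trace_conj]

theorem isPE_S_pow (k : ℕ) : IsPE ((S : SL(2, ℤ)) ^ k) := by
  rw [pow_eq_pow_mod k S_pow_four]
  have hk : k % 4 < 4 := Nat.mod_lt _ (by norm_num)
  unfold IsPE
  interval_cases (k % 4) <;>
    simp [pow_succ, coe_S, Matrix.trace_fin_two]

theorem isPE_ST_pow (k : ℕ) : IsPE ((S * T : SL(2, ℤ)) ^ k) := by
  rw [pow_eq_pow_mod k ST_pow_six]
  have hk : k % 6 < 6 := Nat.mod_lt _ (by norm_num)
  unfold IsPE
  interval_cases (k % 6) <;>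
    simp [pow_succ, coe_S, coe_T, Matrix.trace_fin_two]

theorem isPE_T_pow (k : ℕ) : IsPE ((T : SL(2, ℤ)) ^ k) := by
  unfold IsPE
  have h3 := coe_T_zpow (k : ℤ)
  rw [zpow_natCast] at h3
  rw [h3]
  simp [Matrix.trace_fin_two]

theorem closure_S_ST : Subgroup.closure ({S, S * T} : Set SL(2, ℤ)) = ⊤ := by
  rw [eq_top_iff, ← SpecialLinearGroup.SL2Z_generators, Subgroup.closure_le]
  rintro x (rfl | hx)
  · exact Subgroup.subset_closure (Set.mem_insert _ _)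
  · rw [Set.mem_singleton_iff] at hx
    subst hx
    have h : (T : SL(2, ℤ)) = S⁻¹ * (S * T) := by group
    have hmem : S⁻¹ * (S * T) ∈ Subgroup.closure ({S, S * T} : Set SL(2, ℤ)) :=
      Subgroup.mul_mem _
        (Subgroup.inv_mem _ (Subgroup.subset_closure (Set.mem_insert _ _)))
        (Subgroup.subset_closure (Set.mem_insert_of_mem _ rfl))
    rw [← h] at hmem
    exact hmem

variable (k : Type*) [Field k]

theorem homPE_le_parab3 (Γ : Subgroup SL(2, ℤ)) : homPE k Γ k ≤ parab3 Γ k S T := by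
  intro φ hφ
  rw [mem_parab3]
  refine ⟨⟨?_, ?_⟩, ?_⟩
  · intro g n h
    exact hφ ⟨_, h⟩ ((isPE_conj_iff g _).mpr (isPE_S_pow n))
  · intro g n h
    exact hφ ⟨_, h⟩ ((isPE_conj_iff g _).mpr (isPE_ST_pow n))
  · intro g n h
    exact hφ ⟨_, h⟩ ((isPE_conj_iff g _).mpr (isPE_T_pow n))

/-- **Bound for a general finite index subgroup**, over any field. -/
theorem finrank_homPE_add_le (Γ : Subgroup SL(2, ℤ)) [Finite (SL(2, ℤ) ⧸ Γ)] :
    Module.Finite k (homPE k Γ k) ∧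
      finrank k (homPE k Γ k)
        + orbNum (S : SL(2, ℤ)) (SL(2, ℤ) ⧸ Γ) + orbNum (S * T : SL(2, ℤ)) (SL(2, ℤ) ⧸ Γ)
        + orbNum (T : SL(2, ℤ)) (SL(2, ℤ) ⧸ Γ)
        ≤ Nat.card (SL(2, ℤ) ⧸ Γ) + 2 := by
  obtain ⟨hfin, hle⟩ := finrank_parab3_add_le Γ k S T closure_S_ST
  have hinj : Function.Injective (Submodule.inclusion (homPE_le_parab3 k Γ)) :=
    Submodule.inclusion_injective _
  have hfin' : Module.Finite k (homPE k Γ k) := Module.Finite.of_injective _ hinj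
  refine ⟨hfin', ?_⟩
  have h1 := LinearMap.finrank_le_finrank_of_injective hinj
  omega

open CongruenceSubgroup ModularCurve Fermat.Agent.S24.PartV in
/-- **Bound for `Γ₀(N)`**: at most `2 g`, in every characteristic. -/
theorem finrank_homPE_Gamma0_le (N : ℕ) [NeZero N] :
    Module.Finite k (homPE k (Gamma0 N) k) ∧
      (finrank k (homPE k (Gamma0 N) k) : ℚ) ≤ 2 * genusFormula N := by
  obtain ⟨hfin, hle⟩ := finrank_homPE_add_le k (Gamma0 N)
  refine ⟨hfin, ?_⟩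
  have h2 := two_mul_orbCount_S N
  have h3 := three_mul_orbCount_ST N
  have hT := orbCount_T N
  have hn := card_coset N
  change finrank k (homPE k (Gamma0 N) k) + orbCount (SL(2, ℤ) ⧸ Gamma0 N) S
    + orbCount (SL(2, ℤ) ⧸ Gamma0 N) (S * T) + orbCount (SL(2, ℤ) ⧸ Gamma0 N) T
    ≤ Nat.card (SL(2, ℤ) ⧸ Gamma0 N) + 2 at hle
  rw [hT, hn] at hle
  have hle' : (finrank k (homPE k (Gamma0 N) k) : ℚ)
      + (orbCount (SL(2, ℤ) ⧸ Gamma0 N) S : ℚ)
      + (orbCount (SL(2, ℤ) ⧸ Gamma0 N) (S * T) : ℚ) + (cuspCount N : ℚ)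
      ≤ (dedekindPsi N : ℚ) + 2 := by
    exact_mod_cast hle
  have h2' : (2 : ℚ) * (orbCount (SL(2, ℤ) ⧸ Gamma0 N) S : ℚ)
      = (dedekindPsi N : ℚ) + (nuTwo N : ℚ) := by
    exact_mod_cast h2
  have h3' : (3 : ℚ) * (orbCount (SL(2, ℤ) ⧸ Gamma0 N) (S * T) : ℚ) =
      (dedekindPsi N : ℚ) + 2 * (nuThree N : ℚ) := by
    exact_mod_cast h3
  unfold genusFormula
  linarith

end Fermat.Agent.Gateway.A2
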