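/-
helper63 (P-GATEWAY, part (a2)): comparison of `homPE` with the Prelude's `parabolicHoms` over `ℂ`,
and the conditional assembly of (a2) for `Γ₀(N)` from the frozen shapes of S20 and S21.
-/
import Fermat.Agent.Gateway.A2.CountPE
import Fermat.Agent.Gateway.A2.SL2Z
import Fermat.Prelude.Def_ModularCurve_PeriodHomPair
import Fermat.Prelude.Def_ModularCurve_GenusNumerics

set_option autoImplicit false

namespace Fermat.Agent.Gateway.A2.Count

open scoped MatrixGroups
open Matrix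

/-- Cayley–Hamilton for an element of `SL(2, ℤ)`: `M ^ 2 = t • M - 1`. -/
theorem sl2_sq (γ : SL(2, ℤ)) :
    (γ : Matrix (Fin 2) (Fin 2) ℤ) ^ 2
      = (γ : Matrix (Fin 2) (Fin 2) ℤ).trace • (γ : Matrix (Fin 2) (Fin 2) ℤ) - 1 := by
  have hdet : (γ : Matrix (Fin 2) (Fin 2) ℤ) 0 0 * (γ : Matrix (Fin 2) (Fin 2) ℤ) 1 1
      - (γ : Matrix (Fin 2) (Fin 2) ℤ) 0 1 * (γ : Matrix (Fin 2) (Fin 2) ℤ) 1 0 = 1 := by
    have := γ.det_coe
    rwa [Matrix.det_fin_two] at this
  generalize (γ : Matrix (Fin 2) (Fin 2) ℤ) = M at hdet ⊢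
  ext i j
  fin_cases i <;> fin_cases j <;>
    simp only [pow_two, Matrix.mul_apply, Fin.sum_univ_two, Matrix.trace_fin_two, Matrix.sub_apply,
      Matrix.smul_apply, smul_eq_mul, Matrix.one_apply_eq, Fin.zero_eta, Fin.mk_one, Fin.isValue,
      ne_eq, not_false_eq_true, Matrix.one_apply_ne, zero_ne_one, one_ne_zero, sub_zero] <;>
    first | linear_combination (-1 : ℤ) * hdet | linear_combination (0 : ℤ) * hdet

/-- An element of `SL(2, ℤ)` with trace `t`, `t ^ 2 < 4` (an elliptic element), has order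
dividing `12`. -/
theorem sl2_pow_twelve (γ : SL(2, ℤ))
    (h : (γ : Matrix (Fin 2) (Fin 2) ℤ).trace ^ 2 < 4) : γ ^ 12 = 1 := by
  have hsq := sl2_sq γ
  suffices hM : (γ : Matrix (Fin 2) (Fin 2) ℤ) ^ 12 = 1 by
    apply Matrix.SpecialLinearGroup.ext
    intro i j
    simp [hM]
  generalize (γ : Matrix (Fin 2) (Fin 2) ℤ) = M at hsq h ⊢
  generalize M.trace = t at hsq h
  have ht : t = -1 ∨ t = 0 ∨ t = 1 := by
    have h1 : -2 < t := by nlinarith
    have h2 : t < 2 := by nlinarith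
    omega
  rcases ht with rfl | rfl | rfl
  · have h3 : M ^ 3 = 1 := by
      calc M ^ 3 = M * M ^ 2 := by rw [pow_succ']
        _ = M * ((-1 : ℤ) • M - 1) := by rw [hsq]
        _ = -(M ^ 2) - M := by rw [mul_sub, mul_one, neg_one_smul, mul_neg, pow_two]
        _ = 1 := by rw [hsq]; simp
    calc M ^ 12 = (M ^ 3) ^ 4 := by rw [← pow_mul]
      _ = 1 := by rw [h3, one_pow]
  · have h2 : M ^ 2 = -1 := by rw [hsq]; simp
    calc M ^ 12 = (M ^ 2) ^ 6 := by rw [← pow_mul]
      _ = 1 := by rw [h2]; exact Even.neg_one_pow ⟨3, rfl⟩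
  · have h3 : M ^ 3 = -1 := by
      calc M ^ 3 = M * M ^ 2 := by rw [pow_succ']
        _ = M * ((1 : ℤ) • M - 1) := by rw [hsq]
        _ = M ^ 2 - M := by rw [mul_sub, mul_one, one_smul, pow_two]
        _ = -1 := by rw [hsq]; simp
    calc M ^ 12 = (M ^ 3) ^ 4 := by rw [← pow_mul]
      _ = 1 := by rw [h3]; exact Even.neg_one_pow ⟨2, rfl⟩

section Compare

variable (Γ : Subgroup SL(2, ℤ))

/-- Over a torsion-free group of values, vanishing on the elements of trace `± 2` forces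
vanishing on the elliptic elements: `homPE = parabolicHoms`. -/
theorem homPE_eq_parabolicHoms (R : Type*) [Semiring R] (B : Type*) [AddCommGroup B] [Module R B]
    [IsAddTorsionFree B] :
    homPE R Γ B = ModularCurve.Period.parabolicHoms R Γ B := by
  apply le_antisymm
  · intro φ hφ γ hγ
    exact hφ γ (by unfold IsPE; rw [hγ])
  · intro φ hφ γ hγ
    unfold IsPE at hγ
    rcases lt_or_eq_of_le hγ with hlt | heq
    · have h12 : γ ^ 12 = 1 := by
        apply Subtype.ext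
        rw [Subgroup.coe_pow, Subgroup.coe_one]
        exact sl2_pow_twelve _ hlt
      have h0 : (12 : ℕ) • φ (Additive.ofMul γ) = 0 := by
        rw [← map_nsmul, ← ofMul_pow, h12, ofMul_one, map_zero]
      exact (nsmul_eq_zero_iff_right (by norm_num)).mp h0
    · exact hφ γ heq

theorem homPE_complex_eq : homPE ℂ Γ ℂ = ModularCurve.Period.parabolicHoms ℂ Γ ℂ :=
  homPE_eq_parabolicHoms Γ ℂ ℂ

end Compare

section Assembly

open CongruenceSubgroup ModularCurve

variable (N : ℕ) [NeZero N]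

/-- From the frozen shape of S21: `dim_ℂ homPE(Γ₀(N), ℂ) = 2 dim S₂(Γ₀(N))`, and `S₂` is
finite-dimensional. -/
theorem finrank_homPE_Gamma0_of_S21
    (h21 : Function.Injective (ModularCurve.periodHomPair N) ∧
      LinearMap.range (ModularCurve.periodHomPair N)
        = ModularCurve.Period.parabolicHoms ℂ (Gamma0 N) ℂ) :
    Module.Finite ℂ (CuspForm (Gamma0 N) 2) ∧
    Module.finrank ℂ (homPE ℂ (Gamma0 N) ℂ) = 2 * Module.finrank ℂ (CuspForm (Gamma0 N) 2) := by
  obtain ⟨hinj, hrange⟩ := h21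
  have hfinPE : Module.Finite ℂ (homPE ℂ (Gamma0 N) ℂ) := (finrank_homPE_Gamma0_le ℂ N).1
  rw [homPE_complex_eq, ← hrange] at hfinPE
  have hfin2 : Module.Finite ℂ (CuspForm (Gamma0 N) 2 × CuspForm (Gamma0 N) 2) :=
    Module.Finite.equiv (LinearEquiv.ofInjective _ hinj).symm
  have hfin : Module.Finite ℂ (CuspForm (Gamma0 N) 2) :=
    Module.Finite.of_injective (LinearMap.inl ℂ _ (CuspForm (Gamma0 N) 2)) LinearMap.inl_injective
  refine ⟨hfin, ?_⟩
  rw [homPE_complex_eq, ← hrange, LinearMap.finrank_range_of_inj hinj, Module.finrank_prod]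
  ring

/-- **(a2) for `Γ₀(N)`, conditional on the frozen statements S20 and S21.**
`Γ₀(N)^ab / ⟨parabolic, elliptic, ±1⟩ ≃ ℤ^{2g}` and the number of characters of `Γ₀(N)` with values
in `μ_n`, trivial on parabolic and elliptic elements, is `n^{2g}`. -/
theorem a2_Gamma0_of_S20_S21
    (h20 : (Module.finrank ℂ (CuspForm (Gamma0 N) 2) : ℚ) = ModularCurve.genusFormula N)
    (h21 : Function.Injective (ModularCurve.periodHomPair N) ∧
      LinearMap.range (ModularCurve.periodHomPair N)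
        = ModularCurve.Period.parabolicHoms ℂ (Gamma0 N) ℂ) :
    ∃ g : ℕ, (g : ℚ) = ModularCurve.genusFormula N ∧
      Nonempty (Additive (PEQuot (Gamma0 N)) ≃+ (Fin (2 * g) →₀ ℤ)) ∧
      ∀ (n : ℕ) [NeZero n],
        Nat.card (homPE (ZMod n) (Gamma0 N) (ZMod n)) = n ^ (2 * g) ∧
        Nat.card (charPE (Gamma0 N) (rootsOfUnity n ℂ)) = n ^ (2 * g) := by
  refine ⟨Module.finrank ℂ (CuspForm (Gamma0 N) 2), h20, ?_⟩
  have hC := (finrank_homPE_Gamma0_of_S21 N h21).2
  have hle : ∀ (l : ℕ) [Fact l.Prime],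
      Module.finrank (ZMod l) (homPE (ZMod l) (Gamma0 N) (ZMod l))
        ≤ 2 * Module.finrank ℂ (CuspForm (Gamma0 N) 2) := by
    intro l _
    have h := (finrank_homPE_Gamma0_le (ZMod l) N).2
    rw [← h20] at h
    exact_mod_cast h
  exact ⟨nonempty_PEQuot_addEquiv (Gamma0 N) _ hC hle, fun n _ =>
    ⟨card_homPE_zmod (Gamma0 N) _ hC hle n, card_charPE_rootsOfUnity (Gamma0 N) _ hC hle n⟩⟩

end Assembly

end Fermat.Agent.Gateway.A2.Count
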