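/-
helper63 (P-GATEWAY, part (a2)): the UNCONDITIONAL export of (a2) for `Γ₀(N)`, obtained by feeding
the landed results `Fermat.Agent.S20.result` and `Fermat.Agent.S21.result` into
`a2_Gamma0_of_S20_S21` (file `Final.lean`).  Kept in a separate file so that the closure of
`Final.lean` stays light.
-/
import Fermat.Agent.Gateway.A2.Final
import Fermat.Agent.S21

set_option autoImplicit false

namespace Fermat.Agent.Gateway.A2.Count

open scoped MatrixGroups
open CongruenceSubgroup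

section Uncond

variable (N : ℕ) [NeZero N]

/-- `homPE` over `ℤ` and over `ZMod n` have the same carrier. -/
theorem mem_homPE_iff_of_ring (R R' : Type*) [Semiring R] [Semiring R'] (Γ : Subgroup SL(2, ℤ))
    (B : Type*) [AddCommGroup B] [Module R B] [Module R' B] (φ : Additive Γ →+ B) :
    φ ∈ homPE R Γ B ↔ φ ∈ homPE R' Γ B := by
  rw [mem_homPE, mem_homPE]

/-- The carriers of `homPE R Γ B` for two coefficient rings are in canonical bijection. -/
def homPERingEquiv (R R' : Type*) [Semiring R] [Semiring R'] (Γ : Subgroup SL(2, ℤ))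
    (B : Type*) [AddCommGroup B] [Module R B] [Module R' B] :
    homPE R Γ B ≃+ homPE R' Γ B where
  toFun φ := ⟨φ.1, (mem_homPE_iff_of_ring R R' Γ B φ.1).1 φ.2⟩
  invFun φ := ⟨φ.1, (mem_homPE_iff_of_ring R R' Γ B φ.1).2 φ.2⟩
  left_inv _ := rfl
  right_inv _ := rfl
  map_add' _ _ := rfl

/-- **Part (a2), unconditional.**  With `g` the genus of `X₀(N)`:
`Γ₀(N)^ab / ⟨parabolic, elliptic, ±1⟩ ≃ ℤ^{2g}`, and for every `n ≥ 1` the group of homomorphisms
`Γ₀(N) → ℤ/n` (resp. characters `Γ₀(N) → μ_n(ℂ)`) killing parabolic and elliptic elements has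
exactly `n^{2g}` elements. -/
theorem a2_Gamma0 :
    ∃ g : ℕ, (g : ℚ) = ModularCurve.genusFormula N ∧
      Nonempty (Additive (PEQuot (Gamma0 N)) ≃+ (Fin (2 * g) →₀ ℤ)) ∧
      ∀ (n : ℕ) [NeZero n],
        Nat.card (homPE (ZMod n) (Gamma0 N) (ZMod n)) = n ^ (2 * g) ∧
        Nat.card (homPE ℤ (Gamma0 N) (ZMod n)) = n ^ (2 * g) ∧
        Nat.card (charPE (Gamma0 N) (rootsOfUnity n ℂ)) = n ^ (2 * g) := by
  obtain ⟨g, hg, hfree, hcard⟩ :=
    a2_Gamma0_of_S20_S21 N (Fermat.Agent.S20.result N) (Fermat.Agent.S21.result N)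
  refine ⟨g, hg, hfree, fun n _ => ⟨(hcard n).1, ?_, (hcard n).2⟩⟩
  rw [← (hcard n).1]
  exact Nat.card_congr (homPERingEquiv ℤ (ZMod n) (Gamma0 N) (ZMod n)).toEquiv

/-- The genus `g` of `X₀(N)` as a natural number: `dim S₂(Γ₀(N))`. -/
noncomputable def genusNat : ℕ := Module.finrank ℂ (CuspForm (Gamma0 N) 2)

theorem genusNat_cast : (genusNat N : ℚ) = ModularCurve.genusFormula N :=
  Fermat.Agent.S20.result N

/-- `dim_ℂ homPE ℂ Γ₀(N) ℂ = 2g`. -/
theorem finrank_homPE_Gamma0_complex :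
    Module.finrank ℂ (homPE ℂ (Gamma0 N) ℂ) = 2 * genusNat N :=
  (finrank_homPE_Gamma0_of_S21 N (Fermat.Agent.S21.result N)).2

/-- The same statement as `a2_Gamma0`, with the explicit genus `genusNat N`. -/
theorem a2_Gamma0_genusNat :
    Nonempty (Additive (PEQuot (Gamma0 N)) ≃+ (Fin (2 * genusNat N) →₀ ℤ)) ∧
      ∀ (n : ℕ) [NeZero n],
        Nat.card (homPE (ZMod n) (Gamma0 N) (ZMod n)) = n ^ (2 * genusNat N) ∧
        Nat.card (homPE ℤ (Gamma0 N) (ZMod n)) = n ^ (2 * genusNat N) ∧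
        Nat.card (charPE (Gamma0 N) (rootsOfUnity n ℂ)) = n ^ (2 * genusNat N) := by
  obtain ⟨g, hg, hfree, hcard⟩ := a2_Gamma0 N
  have hgg : g = genusNat N := by
    have h := genusNat_cast N
    rw [← hg] at h
    exact_mod_cast h.symm
  subst hgg
  exact ⟨hfree, hcard⟩

end Uncond

end Fermat.Agent.Gateway.A2.Count
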